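import Fermat.Agent.Ehrhart.HalfOpen
import Fermat.Agent.LatticePolytopes.Asymmetry
import Mathlib.Data.Sym.Card
import Mathlib.Data.Finsupp.Multiset

/-!
# Fundamental boxes

The integral points of a half-open simplicial cone are uniquely an integral point of its box plus a
natural combination of the edges, so at each height they are counted by binomial coefficients.
-/

set_option autoImplicit false

noncomputable section

open Matrix FA.Perfect

namespace FA.Ehrhart

variable {m n : ℕ}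

/-- A vertex raised to height one. -/
def up (v : Fin m → Fin n → ℤ) (i : Fin m) : Fin (n + 1) → ℤ := Fin.cons 1 (v i)

/-- The raised vertices. -/
def cfg (v : Fin m → Fin n → ℤ) (i : Fin m) : Fin (n + 1) → ℝ := castVec (up v i)

theorem cfg_zero (v : Fin m → Fin n → ℤ) (i : Fin m) : cfg v i 0 = 1 := by
  simp [cfg, up, castVec]

theorem coord_sub (a : Fin m → Fin (n + 1) → ℝ) (g : Fin (n + 1) → Fin m)
    (x y : Fin (n + 1) → ℝ) : coord a g (x - y) = coord a g x - coord a g y :=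
  mulVec_sub _ _ _

theorem castVec_comb (v : Fin m → Fin n → ℤ) (g : Fin (n + 1) → Fin m) (κ : Fin (n + 1) → ℤ) :
    castVec (∑ k, κ k • up v (g k)) = ∑ k, (κ k : ℝ) • cfg v (g k) := by
  funext r
  simp [castVec, cfg, Finset.sum_apply]

/-- A half-open fundamental box. -/
def InBox (v : Fin m → Fin n → ℤ) (g : Fin (n + 1) → Fin m) (o : Fin (n + 1) → Bool)
    (b : Fin (n + 1) → ℤ) : Prop :=
  ∀ k, if o k then 0 < coord (cfg v) g (castVec b) k ∧ coord (cfg v) g (castVec b) k ≤ 1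
    else 0 ≤ coord (cfg v) g (castVec b) k ∧ coord (cfg v) g (castVec b) k < 1

theorem inBox_mem_Icc {v : Fin m → Fin n → ℤ} {g : Fin (n + 1) → Fin m}
    {o : Fin (n + 1) → Bool} {b : Fin (n + 1) → ℤ} (h : InBox v g o b) (k : Fin (n + 1)) :
    0 ≤ coord (cfg v) g (castVec b) k ∧ coord (cfg v) g (castVec b) k ≤ 1 := by
  have := h k
  split_ifs at this
  exacts [⟨this.1.le, this.2⟩, ⟨this.1, this.2.le⟩]

theorem finite_inBox (v : Fin m → Fin n → ℤ) (g : Fin (n + 1) → Fin m)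
    (o : Fin (n + 1) → Bool) : {b | g ∈ simplices (cfg v) ∧ InBox v g o b}.Finite := by
  obtain ⟨R, hR⟩ := ((isCompact_Icc (a := (0 : Fin (n + 1) → ℝ)) (b := 1)).image
    (continuous_const.matrix_mulVec continuous_id
      (A := fun _ => cols (cfg v) g))).isBounded.exists_norm_le
  refine (Set.finite_Icc (fun _ : Fin (n + 1) => -⌈R⌉) fun _ => ⌈R⌉).subset fun b hb => ?_
  have hmem : castVec b ∈ (fun c => cols (cfg v) g *ᵥ c) '' Set.Icc 0 1 :=
    ⟨coord (cfg v) g (castVec b), ⟨fun k => (inBox_mem_Icc hb.2 k).1,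
      fun k => (inBox_mem_Icc hb.2 k).2⟩, (cols_mulVec g _).trans (sum_coord hb.1 _)⟩
  have h : ∀ i, |(b i : ℝ)| ≤ ⌈R⌉ := fun i =>
    ((norm_le_pi_norm (castVec b) i).trans (hR _ hmem)).trans (Int.le_ceil R)
  exact ⟨fun i => by exact_mod_cast (abs_le.1 (h i)).1,
    fun i => by exact_mod_cast (abs_le.1 (h i)).2⟩

/-- The points of the box. -/
def boxPts (v : Fin m → Fin n → ℤ) (g : Fin (n + 1) → Fin m) (o : Fin (n + 1) → Bool) :
    Finset (Fin (n + 1) → ℤ) :=
  (finite_inBox v g o).toFinset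

variable {v : Fin m → Fin n → ℤ} {g : Fin (n + 1) → Fin m} {o : Fin (n + 1) → Bool}

theorem mem_boxPts (hg : g ∈ simplices (cfg v)) {b : Fin (n + 1) → ℤ} :
    b ∈ boxPts v g o ↔ InBox v g o b := by
  simp [boxPts, hg]

theorem height_nonneg (hg : g ∈ simplices (cfg v)) {b : Fin (n + 1) → ℤ} (hb : InBox v g o b) :
    0 ≤ b 0 ∧ b 0 ≤ n + 1 := by
  have h := zero_lt_height_coord hg (cfg_zero v) (castVec b)
  have h1 : (0 : ℝ) ≤ (b 0 : ℝ) :=
    (Finset.sum_nonneg fun k _ => (inBox_mem_Icc hb k).1).trans_eq h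
  have h2 : (b 0 : ℝ) ≤ (n : ℝ) + 1 := by
    refine h.symm.trans_le ((Finset.sum_le_sum fun k _ => (inBox_mem_Icc hb k).2).trans_eq ?_)
    simp
  exact ⟨by exact_mod_cast h1, by exact_mod_cast h2⟩

theorem height_le (hg : g ∈ simplices (cfg v)) {b : Fin (n + 1) → ℤ} (hb : InBox v g o b)
    {k : Fin (n + 1)} (hk : o k = false) : b 0 ≤ n := by
  have h := zero_lt_height_coord hg (cfg_zero v) (castVec b)
  have hlt : ∑ i, coord (cfg v) g (castVec b) i < ∑ _i : Fin (n + 1), (1 : ℝ) := by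
    refine Finset.sum_lt_sum (fun i _ => (inBox_mem_Icc hb i).2) ⟨k, Finset.mem_univ k, ?_⟩
    have := hb k
    simp only [hk, Bool.false_eq_true, if_false] at this
    exact this.2
  rw [h] at hlt
  simp only [Finset.sum_const, Finset.card_univ, Fintype.card_fin, nsmul_eq_mul, mul_one] at hlt
  have : (b 0 : ℤ) < ((n + 1 : ℕ) : ℤ) := by
    have h' : (b 0 : ℝ) < ((n + 1 : ℕ) : ℝ) := hlt
    exact_mod_cast h'
  omega

/-- The integral points of height `t` of the half-open cone. -/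
def halfSet (v : Fin m → Fin n → ℤ) (g : Fin (n + 1) → Fin m) (o : Fin (n + 1) → Bool) (t : ℕ) :
    Set (Fin (n + 1) → ℤ) :=
  {x | x 0 = (t : ℤ) ∧ InHalf (cfg v) g o (castVec x)}

theorem card_sum_eq (s : ℕ) :
    Nat.card {κ : Fin (n + 1) → ℕ // ∑ k, κ k = s} = (s + n).choose n := by
  rw [← Nat.card_congr (Sym.equivNatSumOfFintype (Fin (n + 1)) s), Nat.card_eq_fintype_card,
    Sym.card_sym_eq_choose, Fintype.card_fin, show n + 1 + s - 1 = s + n by omega,
    ← Nat.choose_symm (Nat.le_add_right s n), Nat.add_sub_cancel_left]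

theorem coord_add_comb (hg : g ∈ simplices (cfg v)) (b : Fin (n + 1) → ℤ) (κ : Fin (n + 1) → ℤ) :
    coord (cfg v) g (castVec (b + ∑ k, κ k • up v (g k))) =
      fun k => coord (cfg v) g (castVec b) k + κ k := by
  have e : castVec (b + ∑ k, κ k • up v (g k)) =
      castVec b + castVec (∑ k, κ k • up v (g k)) := by
    funext r
    simp [castVec]
  rw [e, coord, mulVec_add, castVec_comb]
  funext k
  exact congrArg₂ (· + ·) rfl (congrFun (coord_sum hg fun j => (κ j : ℝ)) k)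

/-- **Unique decomposition.** -/
theorem halfSet_count (hg : g ∈ simplices (cfg v)) (t : ℕ) :
    (halfSet v g o t).Finite ∧ (halfSet v g o t).ncard = ∑ b ∈ boxPts v g o,
      if (b 0).toNat ≤ t then (t - (b 0).toNat + n).choose n else 0 := by
  classical
  obtain ⟨B, hB⟩ : ∃ B, B = (boxPts v g o).filter fun b => (b 0).toNat ≤ t := ⟨_, rfl⟩
  have hBmem : ∀ b, b ∈ B ↔ InBox v g o b ∧ (b 0).toNat ≤ t := fun b => by
    rw [hB, Finset.mem_filter, mem_boxPts hg]
  have hheight : ∀ (b : Fin (n + 1) → ℤ) (κ : Fin (n + 1) → ℤ),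
      (b + ∑ k, κ k • up v (g k)) 0 = b 0 + ∑ k, κ k := fun b κ => by
    simp [Finset.sum_apply, up]
  let f : (Σ b : {b // b ∈ B}, {κ : Fin (n + 1) → ℕ // ∑ k, κ k = t - (b.1 0).toNat}) →
      halfSet v g o t := fun p => ⟨p.1.1 + ∑ k, ((p.2.1 k : ℕ) : ℤ) • up v (g k), by
    obtain ⟨hb, hbt⟩ := (hBmem _).1 p.1.2
    refine ⟨?_, fun k => ?_⟩
    · rw [hheight, ← Nat.cast_sum, p.2.2]
      have := (height_nonneg hg hb).1
      omega
    · rw [coord_add_comb hg]
      have hk := hb k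
      have hnn : (0 : ℝ) ≤ (((p.2.1 k : ℕ) : ℤ) : ℝ) := by positivity
      dsimp only
      split_ifs with ho
      · rw [if_pos ho] at hk
        linarith [hk.1]
      · rw [if_neg ho] at hk
        linarith [hk.1]⟩
  have hinj : Function.Injective f := by
    rintro ⟨⟨b, hb⟩, ⟨κ, hκ⟩⟩ ⟨⟨b', hb'⟩, ⟨κ', hκ'⟩⟩ h
    have h1 := congrArg Subtype.val h
    simp only [f] at h1
    have hc := congrArg (fun x => coord (cfg v) g (castVec x)) h1
    simp only [coord_add_comb hg] at hc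
    have hκeq : κ = κ' := funext fun k => by
      have hck : coord (cfg v) g (castVec b) k + (((κ k : ℕ) : ℤ) : ℝ) =
          coord (cfg v) g (castVec b') k + (((κ' k : ℕ) : ℤ) : ℝ) := congrFun hc k
      have h2 := ((hBmem _).1 hb).1 k
      have h3 := ((hBmem _).1 hb').1 k
      have hlt : |((((κ k : ℕ) : ℤ) - ((κ' k : ℕ) : ℤ) : ℤ) : ℝ)| < 1 := by
        rw [Int.cast_sub, abs_lt]
        split_ifs at h2 h3 <;> constructor <;> linarith
      have h4 : |((κ k : ℕ) : ℤ) - ((κ' k : ℕ) : ℤ)| < 1 := by exact_mod_cast hlt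
      have := Int.abs_lt_one_iff.1 h4
      omega
    subst hκeq
    have hbeq : b = b' := add_right_cancel h1
    subst hbeq
    rfl
  have hsurj : Function.Surjective f := by
    rintro ⟨x, hx0, hx⟩
    obtain ⟨c, hc⟩ : ∃ c, c = coord (cfg v) g (castVec x) := ⟨_, rfl⟩
    obtain ⟨κ, hκ⟩ : ∃ κ : Fin (n + 1) → ℕ,
        κ = fun k => if o k then (⌈c k⌉ - 1).toNat else ⌊c k⌋.toNat := ⟨_, rfl⟩
    obtain ⟨b, hb⟩ : ∃ b, b = x - ∑ k, ((κ k : ℕ) : ℤ) • up v (g k) := ⟨_, rfl⟩
    have hxb : b + ∑ k, ((κ k : ℕ) : ℤ) • up v (g k) = x := by rw [hb, sub_add_cancel]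
    have hbox : InBox v g o b := fun k => by
      have e : coord (cfg v) g (castVec b) k = c k - (((κ k : ℕ) : ℤ) : ℝ) := by
        have h := congrFun (coord_add_comb hg b fun k => ((κ k : ℕ) : ℤ)) k
        rw [hxb, ← hc] at h
        linarith
      rw [e, hκ]
      have hk := hx k
      rw [← hc] at hk
      dsimp only
      split_ifs with ho
      · rw [if_pos ho] at hk
        have h1 : (0 : ℤ) ≤ ⌈c k⌉ - 1 := by linarith [Int.ceil_pos.2 hk]
        rw [Int.toNat_of_nonneg h1, Int.cast_sub, Int.cast_one]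
        constructor <;> linarith [Int.ceil_lt_add_one (c k), Int.le_ceil (c k)]
      · rw [if_neg ho] at hk
        rw [Int.toNat_of_nonneg (Int.floor_nonneg.2 hk)]
        constructor <;> linarith [Int.floor_le (c k), Int.lt_floor_add_one (c k)]
    have hsum : x 0 = b 0 + ∑ k, ((κ k : ℕ) : ℤ) := by rw [← hxb, hheight]
    rw [hx0, ← Nat.cast_sum] at hsum
    have hb0 := (height_nonneg hg hbox).1
    refine ⟨⟨⟨b, (hBmem b).2 ⟨hbox, by omega⟩⟩, ⟨κ, ?_⟩⟩, Subtype.ext hxb⟩
    show ∑ k, κ k = t - (b 0).toNat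
    omega
  have hfib : ∀ b : {b // b ∈ B}, Finite {κ : Fin (n + 1) → ℕ // ∑ k, κ k = t - (b.1 0).toNat} :=
    fun b => Finite.of_equiv _ (Sym.equivNatSumOfFintype (Fin (n + 1)) _)
  have hfin : Finite (halfSet v g o t) := Finite.of_surjective f hsurj
  refine ⟨Set.toFinite _, ?_⟩
  rw [← Nat.card_coe_set_eq, ← Nat.card_congr (Equiv.ofBijective f ⟨hinj, hsurj⟩), Nat.card_sigma,
    ← Finset.sum_filter, ← hB, ← Finset.sum_coe_sort B]
  exact Finset.sum_congr rfl fun b _ => card_sum_eq _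

/-- Reflecting a box exchanges its open and closed facets. -/
theorem sum_boxPts_reflect {M : Type*} [AddCommMonoid M] (hg : g ∈ simplices (cfg v))
    {o' : Fin (n + 1) → Bool} (ho : ∀ k, o' k = !o k) (F : ℕ → M) :
    ∑ b ∈ boxPts v g o', F (b 0).toNat = ∑ b ∈ boxPts v g o, F (n + 1 - (b 0).toNat) := by
  obtain ⟨w, hw⟩ : ∃ w, w = ∑ k, (1 : ℤ) • up v (g k) := ⟨_, rfl⟩
  have hcw : ∀ b : Fin (n + 1) → ℤ, ∀ k, coord (cfg v) g (castVec (w - b)) k =
      1 - coord (cfg v) g (castVec b) k := fun b k => by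
    have e : castVec (w - b) = castVec w - castVec b := by
      funext r
      simp [castVec]
    rw [e, coord_sub, hw, castVec_comb, coord_sum hg]
    simp
  have hmap : ∀ (o₁ o₂ : Fin (n + 1) → Bool), (∀ k, o₂ k = !o₁ k) → ∀ b ∈ boxPts v g o₁,
      w - b ∈ boxPts v g o₂ := fun o₁ o₂ h b hb => by
    rw [mem_boxPts hg] at hb ⊢
    intro k
    have hk := hb k
    rw [hcw b k, h k]
    cases hcase : o₁ k <;> simp [hcase] at hk ⊢ <;> constructor <;> linarith [hk.1, hk.2]
  have hw0 : w 0 = (n : ℤ) + 1 := by simp [hw, Finset.sum_apply, up]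
  refine Finset.sum_nbij' (fun b => w - b) (fun b => w - b)
    (hmap o' o fun k => by rw [ho, Bool.not_not]) (hmap o o' ho) (fun b _ => sub_sub_cancel _ _)
    (fun b _ => sub_sub_cancel _ _) fun b hb => ?_
  have := height_nonneg hg ((mem_boxPts hg).1 hb)
  rw [Pi.sub_apply, hw0]
  congr 1
  omega

end FA.Ehrhart

end
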