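import Fermat.Agent.Ehrhart.Boxes
import Mathlib.Analysis.BoxIntegral.UnitPartition
import Mathlib.Analysis.Convex.Measure
import Mathlib.RingTheory.Polynomial.Pochhammer

/-!
# Ehrhart's polynomial

The half-open decomposition writes the number of integral points in `t P` as a sum of binomial
polynomials in `t`; reflecting the boxes gives reciprocity, and comparing with the volume the
leading coefficient.
-/

set_option autoImplicit false

noncomputable section

open Matrix Filter Topology MeasureTheory Polynomial FA.Perfect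
open scoped Pointwise

namespace FA.Ehrhart

variable {m n : ℕ}

/-- The polytope. -/
def hull (v : Fin m → Fin n → ℤ) : Set (Fin n → ℝ) :=
  convexHull ℝ (Set.range fun i => castVec (v i))

variable {v : Fin m → Fin n → ℤ}

theorem castVec_cons (t : ℤ) (z : Fin n → ℤ) :
    castVec (Fin.cons t z) = Fin.cons (t : ℝ) (castVec z) := by
  funext i
  refine Fin.cases ?_ (fun j => ?_) i <;> simp [castVec]

theorem cons_mem_cone_iff {t : ℝ} (ht : 0 < t) (y : Fin n → ℝ) :
    (Fin.cons t y : Fin (n + 1) → ℝ) ∈ cone (cfg v) ↔ t⁻¹ • y ∈ hull v := by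
  constructor
  · rintro ⟨l, hl, hl'⟩
    have h0 : ∑ i, l i = t := by
      have h := congrFun hl' 0
      simpa [Finset.sum_apply, cfg_zero] using h
    have h1 : ∑ i, l i • castVec (v i) = y := by
      funext j
      have h := congrFun hl' j.succ
      simpa [Finset.sum_apply, cfg, up, castVec] using h
    have e : t⁻¹ • y = ∑ i, (t⁻¹ * l i) • castVec (v i) := by
      rw [← h1, Finset.smul_sum]
      simp only [smul_smul]
    rw [e]
    refine (convex_convexHull ℝ _).sum_mem (fun i _ => mul_nonneg (inv_nonneg.2 ht.le) (hl i)) ?_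
      fun i _ => subset_convexHull ℝ _ (Set.mem_range_self i)
    rw [← Finset.mul_sum, h0, inv_mul_cancel₀ ht.ne']
  · intro h
    have hsub : hull v ⊆ {p | (Fin.cons 1 p : Fin (n + 1) → ℝ) ∈ cone (cfg v)} := by
      refine convexHull_min ?_ fun p hp p' hp' r s hr hs hrs => ?_
      · rintro _ ⟨i, rfl⟩
        classical
        refine ⟨Pi.single i 1, fun j => ?_, ?_⟩
        · rw [Pi.single_apply]
          split_ifs <;> norm_num
        · rw [Finset.sum_eq_single i (fun j _ hj => by simp [hj])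
            (fun hi => absurd (Finset.mem_univ i) hi)]
          rw [Pi.single_eq_same, one_smul, cfg, up, castVec_cons, Int.cast_one]
      · show (Fin.cons 1 (r • p + s • p') : Fin (n + 1) → ℝ) ∈ cone (cfg v)
        have e : (Fin.cons 1 (r • p + s • p') : Fin (n + 1) → ℝ) =
            r • (Fin.cons 1 p : Fin (n + 1) → ℝ) + s • (Fin.cons 1 p' : Fin (n + 1) → ℝ) := by
          funext j
          refine Fin.cases ?_ (fun i => ?_) j <;> simp [hrs]
        rw [e]
        exact add_mem_cone (smul_mem_cone hr hp) (smul_mem_cone hs hp')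
    have e : (Fin.cons t y : Fin (n + 1) → ℝ) = t • (Fin.cons 1 (t⁻¹ • y) : Fin (n + 1) → ℝ) := by
      funext j
      refine Fin.cases ?_ (fun i => ?_) j <;> simp [ht.ne']
    rw [e]
    exact smul_mem_cone ht.le (hsub h)

theorem cast_mem_cone_iff (hne : (hull v).Nonempty) (t : ℕ) (z : Fin n → ℤ) :
    castVec (Fin.cons (t : ℤ) z) ∈ cone (cfg v) ↔ castVec z ∈ (t : ℝ) • hull v := by
  rw [castVec_cons, Int.cast_natCast]
  rcases Nat.eq_zero_or_pos t with rfl | ht
  · rw [Nat.cast_zero, Set.zero_smul_set hne, Set.mem_zero]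
    constructor
    · rintro ⟨l, hl, hl'⟩
      have h0 : ∑ i, l i = 0 := by
        have h := congrFun hl' 0
        simpa [Finset.sum_apply, cfg_zero] using h
      have hl0 := (Finset.sum_eq_zero_iff_of_nonneg fun i _ => hl i).1 h0
      funext j
      have h := congrFun hl' j.succ
      simp only [Finset.sum_apply, Pi.smul_apply, Fin.cons_succ] at h
      rw [← h]
      exact Finset.sum_eq_zero fun i _ => by simp [hl0 i (Finset.mem_univ i)]
    · intro h
      refine ⟨0, fun i => le_rfl, ?_⟩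
      rw [h]
      funext j
      refine Fin.cases ?_ (fun i => ?_) j <;> simp
  · have ht' : (0 : ℝ) < t := Nat.cast_pos.2 ht
    rw [cons_mem_cone_iff ht', Set.mem_smul_set_iff_inv_smul_mem₀ ht'.ne']

theorem cons_mem_interior_iff {t : ℝ} (ht : 0 < t) (y : Fin n → ℝ) :
    (Fin.cons t y : Fin (n + 1) → ℝ) ∈ interior (cone (cfg v)) ↔ y ∈ interior (t • hull v) := by
  have hc : Continuous fun y : Fin n → ℝ => (Fin.cons t y : Fin (n + 1) → ℝ) :=
    continuous_pi fun j => by refine Fin.cases ?_ (fun i => ?_) j <;> simp <;> fun_prop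
  constructor
  · intro h
    refine interior_maximal (t := (fun y : Fin n → ℝ => (Fin.cons t y : Fin (n + 1) → ℝ)) ⁻¹'
      interior (cone (cfg v))) (fun z hz => ?_) (isOpen_interior.preimage hc) h
    rw [Set.mem_smul_set_iff_inv_smul_mem₀ ht.ne', ← cons_mem_cone_iff ht]
    exact interior_subset (Set.mem_preimage.1 hz)
  · intro h
    rw [interior_smul₀ ht.ne', Set.mem_smul_set_iff_inv_smul_mem₀ ht.ne'] at h
    obtain ⟨U, hU⟩ : ∃ U : Set (Fin (n + 1) → ℝ),
        U = {x | 0 < x 0} ∩ (fun x => (x 0)⁻¹ • Fin.tail x) ⁻¹' interior (hull v) := ⟨_, rfl⟩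
    have hUo : IsOpen U := by
      rw [hU]
      refine ContinuousOn.isOpen_inter_preimage ?_ (isOpen_lt continuous_const (continuous_apply 0))
        isOpen_interior
      refine ContinuousOn.smul
        ((continuous_apply (A := fun _ : Fin (n + 1) => ℝ) 0).continuousOn.inv₀ fun x hx =>
        (show 0 < x 0 from hx).ne') ?_
      exact (continuous_pi fun i => continuous_apply i.succ).continuousOn
    refine interior_maximal (t := U) (fun x hx => ?_) hUo ?_
    · rw [hU] at hx
      rw [← Fin.cons_self_tail x]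
      exact (cons_mem_cone_iff hx.1 _).2 (interior_subset hx.2)
    · rw [hU]
      exact ⟨by simpa using ht, by simpa using h⟩

theorem interior_cone_nonempty (hne : (interior (hull v)).Nonempty) :
    (interior (cone (cfg v))).Nonempty := by
  obtain ⟨y, hy⟩ := hne
  exact ⟨Fin.cons 1 y, (cons_mem_interior_iff one_pos y).2 (by rwa [one_smul])⟩

/-- Counting a set of heights through the decomposition. -/
theorem count_decompose {q : Fin (n + 1) → ℝ} {s : ℝ} {t : ℕ} {Z : Set (Fin n → ℤ)}
    (hex : ∀ z ∈ Z, ∃! g, g ∈ simplices (cfg v) ∧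
      InHalf (cfg v) g (openFacets (cfg v) q s g) (castVec (Fin.cons (t : ℤ) z)))
    (hmem : ∀ z, ∀ g ∈ simplices (cfg v),
      InHalf (cfg v) g (openFacets (cfg v) q s g) (castVec (Fin.cons (t : ℤ) z)) → z ∈ Z) :
    Z.ncard = ∑ g ∈ simplices (cfg v),
      (halfSet v g (openFacets (cfg v) q s g) t).ncard := by
  classical
  obtain ⟨H, hH⟩ : ∃ H : (Fin (n + 1) → Fin m) → Finset (Fin (n + 1) → ℤ), ∀ g,
      g ∈ simplices (cfg v) → ↑(H g) = halfSet v g (openFacets (cfg v) q s g) t :=
    ⟨fun g => if hg : g ∈ simplices (cfg v) then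
        (halfSet_count (o := openFacets (cfg v) q s g) hg t).1.toFinset else ∅,
      fun g hg => by simp [hg]⟩
  have himg : (fun z => (Fin.cons (t : ℤ) z : Fin (n + 1) → ℤ)) '' Z =
      ↑((simplices (cfg v)).biUnion H) := by
    ext x
    simp only [Finset.coe_biUnion, Set.mem_iUnion, Set.mem_image]
    constructor
    · rintro ⟨z, hz, rfl⟩
      obtain ⟨g, ⟨hg, h⟩, -⟩ := hex z hz
      exact ⟨g, hg, hH g hg ▸ ⟨Fin.cons_zero _ _, h⟩⟩
    · rintro ⟨g, hg, hx⟩
      rw [hH g hg] at hx
      have e : (Fin.cons (t : ℤ) (Fin.tail x) : Fin (n + 1) → ℤ) = x := by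
        rw [← hx.1]
        exact Fin.cons_self_tail x
      exact ⟨Fin.tail x, hmem _ g hg (e.symm ▸ hx.2), e⟩
  rw [← Set.ncard_image_of_injective Z (Fin.cons_right_injective (α := fun _ => ℤ) (t : ℤ)), himg,
    Set.ncard_coe_finset, Finset.card_biUnion]
  · exact Finset.sum_congr rfl fun g hg => by rw [← hH g hg, Set.ncard_coe_finset]
  · intro g hg g' hg' hne
    rw [Function.onFun, Finset.disjoint_left]
    intro x hx hx'
    rw [← Finset.mem_coe, hH g hg] at hx
    rw [← Finset.mem_coe, hH g' hg'] at hx'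
    have e : (Fin.cons (t : ℤ) (Fin.tail x) : Fin (n + 1) → ℤ) = x := by
      rw [← hx.1]
      exact Fin.cons_self_tail x
    have h1 := hmem (Fin.tail x) g hg (e.symm ▸ hx.2)
    obtain ⟨g₀, -, huni⟩ := hex _ h1
    exact hne ((huni g ⟨hg, e.symm ▸ hx.2⟩).trans (huni g' ⟨hg', e.symm ▸ hx'.2⟩).symm)

/-- `X ↦ (X + n - j) (X + n - j - 1) ⋯ (X + 1 - j) / n!`. -/
def binPoly (n j : ℕ) : ℝ[X] :=
  C ((n.factorial : ℝ)⁻¹) * (descPochhammer ℝ n).comp (X + C ((n : ℝ) - j))

theorem binPoly_natDegree_le (n j : ℕ) : (binPoly n j).natDegree ≤ n := by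
  refine natDegree_mul_le.trans ?_
  rw [natDegree_C, natDegree_comp, natDegree_X_add_C, descPochhammer_natDegree, mul_one, zero_add]

theorem binPoly_eval {n j t : ℕ} (h : j ≤ t + n) :
    (binPoly n j).eval (t : ℝ) = ((t + n - j).choose n : ℝ) := by
  rw [binPoly, eval_mul, eval_C, eval_comp, eval_add, eval_X, eval_C,
    Nat.cast_choose_eq_descPochhammer_div, Nat.cast_sub h]
  push_cast
  rw [show (t : ℝ) + ((n : ℝ) - j) = t + n - j by ring]
  ring

theorem binPoly_reflect {n j : ℕ} (hj : j ≤ n + 1) (x : ℝ) :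
    (binPoly n j).eval (-x) = (-1) ^ n * (binPoly n (n + 1 - j)).eval x := by
  simp only [binPoly, eval_mul, eval_C, eval_comp, eval_add, eval_X]
  rw [descPochhammer_eval_eq_prod_range, descPochhammer_eval_eq_prod_range,
    ← Finset.prod_range_reflect]
  have e : ∀ i ∈ Finset.range n, -x + ((n : ℝ) - j) - ((n - 1 - i : ℕ) : ℝ) =
      -1 * (x + ((n : ℝ) - ((n + 1 - j : ℕ) : ℝ)) - i) := fun i hi => by
    rw [Finset.mem_range] at hi
    rw [Nat.sub_sub, Nat.cast_sub (show 1 + i ≤ n by omega), Nat.cast_sub hj]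
    push_cast
    ring
  rw [Finset.prod_congr rfl e, Finset.prod_mul_distrib, Finset.prod_const, Finset.card_range]
  ring

theorem choose_shift {n j t : ℕ} (h : j ≤ t + n) :
    (if j ≤ t then (t - j + n).choose n else 0) = (t + n - j).choose n := by
  split_ifs with hj
  · congr 1
    omega
  · rw [Nat.choose_eq_zero_of_lt (by omega)]

/-- **Ehrhart's theorem**, with reciprocity and Stanley's numerator. -/
theorem exists_ehrhart (hne : (interior (hull v)).Nonempty) :
    ∃ (p : ℝ[X]) (h : ℕ → ℕ), p.natDegree ≤ n ∧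
      (∀ t : ℕ, p.eval (t : ℝ) = ({z | castVec z ∈ (t : ℝ) • hull v}.ncard : ℝ)) ∧
      (∀ t : ℕ, 1 ≤ t → (-1) ^ n * p.eval (-(t : ℝ)) =
        ({z | castVec z ∈ interior ((t : ℝ) • hull v)}.ncard : ℝ)) ∧
      ∀ t : ℕ, {z | castVec z ∈ (t : ℝ) • hull v}.ncard =
        ∑ j ∈ Finset.range (n + 1), h j * (t + n - j).choose n := by
  classical
  obtain ⟨q, hq⟩ := exists_generic (interior_cone_nonempty hne)
  have hne' : (hull v).Nonempty := hne.mono interior_subset
  obtain ⟨oP, hoP⟩ : ∃ oP, oP = fun g => openFacets (cfg v) q 1 g := ⟨_, rfl⟩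
  obtain ⟨oM, hoM⟩ : ∃ oM, oM = fun g => openFacets (cfg v) q (-1) g := ⟨_, rfl⟩
  have hq0 : 0 < q 0 := by
    obtain ⟨l, hl, hl'⟩ := interior_subset hq.1
    have h0 : q 0 = ∑ i, l i := by rw [← hl']; simp [Finset.sum_apply, cfg_zero]
    refine lt_of_le_of_ne (h0 ▸ Finset.sum_nonneg fun i _ => hl i) fun h => ?_
    have hl0 := (Finset.sum_eq_zero_iff_of_nonneg fun i _ => hl i).1 (h0 ▸ h.symm)
    refine hq.2.1 ∅ (by simp) ?_
    rw [← hl']
    simp [fun i => hl0 i (Finset.mem_univ i)]
  have hnot : ∀ g ∈ simplices (cfg v), ∀ k, oM g k = !oP g k := fun g hg k => by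
    rw [hoP, hoM]
    simp only [openFacets, one_mul, neg_one_mul, neg_lt_zero]
    rcases lt_or_gt_of_ne (hq.2.2 g hg k) with h | h <;> simp [h, h.not_gt]
  have hjn : ∀ g ∈ simplices (cfg v), ∀ b ∈ boxPts v g (oP g), (b 0).toNat ≤ n :=
      fun g hg b hb => by
    obtain ⟨k, -, hk⟩ := Finset.exists_lt_of_sum_lt (s := Finset.univ) (f := fun _ => (0 : ℝ))
      (g := coord (cfg v) g q) (by
        rw [Finset.sum_const_zero, zero_lt_height_coord hg (cfg_zero v)]; exact hq0)
    have := height_le hg ((mem_boxPts hg).1 hb) (k := k) (by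
      rw [hoP]; simp [openFacets, le_of_lt hk])
    omega
  have hcount : ∀ t : ℕ, {z | castVec z ∈ (t : ℝ) • hull v}.ncard =
      ∑ g ∈ simplices (cfg v), ∑ b ∈ boxPts v g (oP g), (t + n - (b 0).toNat).choose n :=
      fun t => by
    rw [count_decompose (v := v) (q := q) (s := 1) (t := t)
      (Z := {z | castVec z ∈ (t : ℝ) • hull v})
      (fun z hz => (existsUnique_plus (cfg_zero v) hq).1 ((cast_mem_cone_iff hne' t z).2 hz))
      fun z g hg h => (cast_mem_cone_iff hne' t z).1 ((existsUnique_plus (cfg_zero v) hq).2 g hg h)]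
    refine Finset.sum_congr rfl fun g hg => ?_
    rw [(halfSet_count hg t).2, hoP]
    refine Finset.sum_congr rfl fun b hb => choose_shift ?_
    exact (hjn g hg b (hoP ▸ hb)).trans (Nat.le_add_left n t)
  obtain ⟨p, hp⟩ : ∃ p : ℝ[X],
      p = ∑ g ∈ simplices (cfg v), ∑ b ∈ boxPts v g (oP g), binPoly n (b 0).toNat := ⟨_, rfl⟩
  refine ⟨p, fun j =>
      ∑ g ∈ simplices (cfg v), ((boxPts v g (oP g)).filter fun b => (b 0).toNat = j).card,
    ?_, fun t => ?_, fun t ht => ?_, fun t => ?_⟩
  · rw [hp]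
    exact natDegree_sum_le_of_forall_le _ _ fun g _ =>
      natDegree_sum_le_of_forall_le _ _ fun b _ => binPoly_natDegree_le n _
  · rw [hcount, hp]
    simp only [eval_finsetSum, Nat.cast_sum]
    exact Finset.sum_congr rfl fun g hg => Finset.sum_congr rfl fun b hb =>
      binPoly_eval ((hjn g hg b hb).trans (Nat.le_add_left n t))
  · have ht' : (0 : ℝ) < t := Nat.cast_pos.2 ht
    have hiff : ∀ z : Fin n → ℤ, castVec (Fin.cons (t : ℤ) z) ∈ interior (cone (cfg v)) ↔
        castVec z ∈ interior ((t : ℝ) • hull v) := fun z => by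
      rw [castVec_cons, Int.cast_natCast, cons_mem_interior_iff ht']
    rw [count_decompose (v := v) (q := q) (s := -1) (t := t)
      (Z := {z | castVec z ∈ interior ((t : ℝ) • hull v)})
      (fun z hz => (existsUnique_minus (cfg_zero v) hq).1 ((hiff z).2 hz))
      fun z g hg h => (hiff z).1 ((existsUnique_minus (cfg_zero v) hq).2 g hg h), hp]
    simp only [eval_finsetSum, Finset.mul_sum, Nat.cast_sum]
    refine Finset.sum_congr rfl fun g hg => ?_
    have hcm : (halfSet v g (openFacets (cfg v) q (-1) g) t).ncard =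
        ∑ b ∈ boxPts v g (oM g), (t + n - (b 0).toNat).choose n := by
      rw [(halfSet_count hg t).2, hoM]
      refine Finset.sum_congr rfl fun b hb => choose_shift ?_
      have := (height_nonneg hg ((mem_boxPts hg).1 hb)).2
      omega
    rw [hcm, sum_boxPts_reflect hg (hnot g hg) fun j => (t + n - j).choose n, Nat.cast_sum]
    refine Finset.sum_congr rfl fun b hb => ?_
    rw [binPoly_reflect ((hjn g hg b hb).trans (Nat.le_succ n)), ← mul_assoc, ← mul_pow,
      neg_one_mul, neg_neg, one_pow, one_mul, binPoly_eval (by omega)]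
  · rw [hcount, Finset.sum_congr rfl fun g hg =>
      (Finset.sum_fiberwise_of_maps_to (t := Finset.range (n + 1))
        (fun b hb => Finset.mem_range.2 (Nat.lt_succ_of_le (hjn g hg b hb)))
        fun b => (t + n - (b 0).toNat).choose n).symm, Finset.sum_comm]
    refine Finset.sum_congr rfl fun j _ => ?_
    rw [Finset.sum_mul]
    refine Finset.sum_congr rfl fun g _ => ?_
    rw [Finset.sum_congr rfl fun b hb => by rw [(Finset.mem_filter.1 hb).2], Finset.sum_const,
      smul_eq_mul]

theorem isCompact_hull (v : Fin m → Fin n → ℤ) : IsCompact (hull v) :=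
  (Set.finite_range _).isCompact_convexHull ℝ

/-- The count grows like the volume. -/
theorem tendsto_count (v : Fin m → Fin n → ℤ) :
    Tendsto (fun t : ℕ => ({z | castVec z ∈ (t : ℝ) • hull v}.ncard : ℝ) / (t : ℝ) ^ n) atTop
      (𝓝 (volume.real (hull v))) := by
  have h := tendsto_card_div_pow_atTop_volume (hull v) (isCompact_hull v).isBounded
    (isCompact_hull v).measurableSet ((convex_convexHull ℝ _).addHaar_frontier volume)
  rw [Fintype.card_fin] at h
  refine h.congr' ?_
  filter_upwards [eventually_gt_atTop 0] with t ht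
  have ht' : (0 : ℝ) < t := Nat.cast_pos.2 ht
  congr 2
  rw [Nat.card_coe_set_eq,
    ← Set.ncard_image_of_injective {z | castVec z ∈ (t : ℝ) • hull v}
      (f := fun z : Fin n → ℤ => (t : ℝ)⁻¹ • castVec z) fun z z' h => funext fun i => by
        have h1 := congrFun h i
        simp only [Pi.smul_apply, smul_eq_mul] at h1
        have h2 := mul_left_cancel₀ (inv_ne_zero ht'.ne') h1
        exact Int.cast_injective h2]
  congr 1
  ext x
  simp only [Set.mem_inter_iff, Set.mem_image, Set.mem_ofPred_eq,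
    Set.mem_inv_smul_set_iff₀ ht'.ne', SetLike.mem_coe, Module.Basis.mem_span_iff_repr_mem,
    Pi.basisFun_repr]
  constructor
  · rintro ⟨hx, hint⟩
    choose z hz using hint
    refine ⟨z, ?_, ?_⟩
    · have e : castVec z = (t : ℝ) • x := funext fun i => hz i
      rw [e]
      exact Set.smul_mem_smul_set hx
    · funext i
      rw [Pi.smul_apply, castVec, show (z i : ℝ) = ((t : ℝ) • x) i from hz i, Pi.smul_apply,
        smul_eq_mul, smul_eq_mul, ← mul_assoc, inv_mul_cancel₀ ht'.ne', one_mul]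
  · rintro ⟨z, hz, rfl⟩
    refine ⟨(Set.mem_smul_set_iff_inv_smul_mem₀ ht'.ne' _ _).1 hz, fun i => ⟨z i, ?_⟩⟩
    simp [castVec, ht'.ne']

/-- The top coefficient from the growth. -/
theorem coeff_eq_of_tendsto {p : ℝ[X]} {d : ℕ} (hd : p.natDegree ≤ d) {c : ℝ}
    (h : Tendsto (fun t : ℕ => p.eval (t : ℝ) / (t : ℝ) ^ d) atTop (𝓝 c)) : p.coeff d = c := by
  refine tendsto_nhds_unique ?_ h
  have hsum : Tendsto (fun t : ℕ => ∑ i ∈ Finset.range (d + 1),
      p.coeff i * ((t : ℝ) ^ i / (t : ℝ) ^ d)) atTop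
      (𝓝 (∑ i ∈ Finset.range (d + 1), if i = d then p.coeff i else 0)) := by
    refine tendsto_finsetSum _ fun i hi => ?_
    split_ifs with h
    · subst h
      refine tendsto_const_nhds.congr' ?_
      filter_upwards [eventually_gt_atTop 0] with t ht
      rw [div_self (pow_ne_zero _ (Nat.cast_ne_zero.2 ht.ne')), mul_one]
    · have hid : i < d := lt_of_le_of_ne (Nat.lt_succ_iff.1 (Finset.mem_range.1 hi)) h
      have h1 := ((tendsto_pow_neg_atTop (𝕜 := ℝ) (show d - i ≠ 0 by omega)).comp
        tendsto_natCast_atTop_atTop).const_mul (p.coeff i)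
      rw [mul_zero] at h1
      refine h1.congr' ?_
      filter_upwards [eventually_gt_atTop 0] with t ht
      simp only [Function.comp_apply]
      congr 1
      rw [_root_.zpow_neg, zpow_natCast, eq_div_iff (pow_ne_zero _ (Nat.cast_ne_zero.2 ht.ne')),
        inv_mul_eq_iff_eq_mul₀ (pow_ne_zero _ (Nat.cast_ne_zero.2 ht.ne')), ← pow_add]
      congr 1
      omega
  rw [Finset.sum_ite_eq', if_pos (Finset.mem_range.2 (Nat.lt_succ_self d))] at hsum
  refine hsum.congr fun t => ?_
  rw [eval_eq_sum_range' (Nat.lt_succ_of_le hd), Finset.sum_div]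
  exact Finset.sum_congr rfl fun i _ => (mul_div_assoc _ _ _).symm

end FA.Ehrhart

end
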