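import Fermat.Agent.Ehrhart.Triangulation
import Mathlib.LinearAlgebra.Matrix.NonsingularInverse
import Mathlib.LinearAlgebra.Matrix.ToLin
import Mathlib.MeasureTheory.Measure.Lebesgue.EqHaar

/-!
# The half-open decomposition

For a generic interior direction `q` every point of the cone lies in exactly one simplex moved
towards `q`, and every interior point in exactly one moved away from `q`.
-/

set_option autoImplicit false

noncomputable section

open Matrix Filter Topology MeasureTheory

namespace FA.Ehrhart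

variable {m n : ℕ} {a : Fin m → Fin (n + 1) → ℝ}

/-- The simplices of the triangulation. -/
def simplices (a : Fin m → Fin (n + 1) → ℝ) : Finset (Fin (n + 1) → Fin m) :=
  open scoped Classical in
  Finset.univ.filter fun g => StrictMono g ∧ Admissible a (Finset.univ.image g)

/-- The vectors of a simplex, as columns. -/
def cols (a : Fin m → Fin (n + 1) → ℝ) (g : Fin (n + 1) → Fin m) :
    Matrix (Fin (n + 1)) (Fin (n + 1)) ℝ :=
  Matrix.of fun r k => a (g k) r

/-- The coordinates in a simplex. -/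
def coord (a : Fin m → Fin (n + 1) → ℝ) (g : Fin (n + 1) → Fin m) (x : Fin (n + 1) → ℝ) :
    Fin (n + 1) → ℝ :=
  (cols a g)⁻¹ *ᵥ x

/-- A simplicial cone without the facets chosen by `o`. -/
def InHalf (a : Fin m → Fin (n + 1) → ℝ) (g : Fin (n + 1) → Fin m) (o : Fin (n + 1) → Bool)
    (x : Fin (n + 1) → ℝ) : Prop :=
  ∀ k, if o k then 0 < coord a g x k else 0 ≤ coord a g x k

theorem mem_simplices {g : Fin (n + 1) → Fin m} :
    g ∈ simplices a ↔ StrictMono g ∧ Admissible a (Finset.univ.image g) := by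
  classical
  simp [simplices]

theorem cols_mulVec (g : Fin (n + 1) → Fin m) (c : Fin (n + 1) → ℝ) :
    cols a g *ᵥ c = ∑ k, c k • a (g k) := by
  funext r
  simp only [cols, mulVec, dotProduct, Matrix.of_apply, Finset.sum_apply, Pi.smul_apply,
    smul_eq_mul]
  exact Finset.sum_congr rfl fun k _ => mul_comm _ _

theorem isUnit_det_cols {g : Fin (n + 1) → Fin m} (hg : g ∈ simplices a) :
    IsUnit (cols a g).det := by
  rw [mem_simplices] at hg
  have h := hg.2.linearIndependent.comp
    (fun k => (⟨g k, Finset.mem_image_of_mem g (Finset.mem_univ k)⟩ : Finset.univ.image g))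
    fun k l h => hg.1.injective (congrArg Subtype.val h)
  rw [← Matrix.isUnit_iff_isUnit_det, ← Matrix.linearIndependent_cols_iff_isUnit]
  exact h

theorem sum_coord {g : Fin (n + 1) → Fin m} (hg : g ∈ simplices a) (x : Fin (n + 1) → ℝ) :
    ∑ k, coord a g x k • a (g k) = x := by
  rw [← cols_mulVec, coord, mulVec_mulVec, mul_nonsing_inv _ (isUnit_det_cols hg), one_mulVec]

theorem coord_sum {g : Fin (n + 1) → Fin m} (hg : g ∈ simplices a) (c : Fin (n + 1) → ℝ) :
    coord a g (∑ k, c k • a (g k)) = c := by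
  rw [← cols_mulVec, coord, mulVec_mulVec, nonsing_inv_mul _ (isUnit_det_cols hg), one_mulVec]

theorem coord_add (g : Fin (n + 1) → Fin m) (x q : Fin (n + 1) → ℝ) (ε : ℝ) (k : Fin (n + 1)) :
    coord a g (x + ε • q) k = coord a g x k + ε * coord a g q k := by
  simp [coord, mulVec_add, mulVec_smul]

theorem zero_lt_height_coord {g : Fin (n + 1) → Fin m} (hg : g ∈ simplices a) (ha : ∀ i, a i 0 = 1)
    (x : Fin (n + 1) → ℝ) : ∑ k, coord a g x k = x 0 := by
  conv_rhs => rw [← sum_coord hg x]
  simp [Finset.sum_apply, ha]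

theorem add_mem_cone {x y : Fin (n + 1) → ℝ} (hx : x ∈ cone a) (hy : y ∈ cone a) :
    x + y ∈ cone a := by
  obtain ⟨l, hl, hl'⟩ := hx
  obtain ⟨μ, hμ, hμ'⟩ := hy
  refine ⟨fun i => l i + μ i, fun i => add_nonneg (hl i) (hμ i), ?_⟩
  simp only [add_smul, Finset.sum_add_distrib, hl', hμ']

theorem smul_mem_cone {x : Fin (n + 1) → ℝ} {r : ℝ} (hr : 0 ≤ r) (hx : x ∈ cone a) :
    r • x ∈ cone a := by
  obtain ⟨l, hl, hl'⟩ := hx
  refine ⟨fun i => r * l i, fun i => mul_nonneg hr (hl i), ?_⟩
  rw [← hl', Finset.smul_sum]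
  simp only [smul_smul]

theorem mem_cone_of_coord {g : Fin (n + 1) → Fin m} (hg : g ∈ simplices a) {x : Fin (n + 1) → ℝ}
    (h : ∀ k, 0 ≤ coord a g x k) : x ∈ cone a := by
  classical
  refine ⟨fun i => ∑ k, if g k = i then coord a g x k else 0, fun i =>
    Finset.sum_nonneg fun k _ => ?_, ?_⟩
  · split_ifs
    exacts [h k, le_rfl]
  · conv_rhs => rw [← sum_coord hg x]
    simp only [Finset.sum_smul]
    rw [Finset.sum_comm]
    simp [ite_smul]

/-- The coefficients of an open simplicial cone are the greatest ones. -/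
theorem isLexMax_coord {g : Fin (n + 1) → Fin m} (hg : g ∈ simplices a) {x : Fin (n + 1) → ℝ}
    (h : ∀ k, 0 < coord a g x k) :
    ∃ l, IsLexMax a x l ∧ ∀ i, 0 < l i ↔ i ∈ Finset.univ.image g := by
  classical
  obtain ⟨l, hl⟩ : ∃ l : Fin m → ℝ, l = fun i => ∑ k, if g k = i then coord a g x k else 0 :=
    ⟨_, rfl⟩
  have hin : ∀ k, l (g k) = coord a g x k := fun k => by
    rw [hl]
    simp only [(mem_simplices.1 hg).1.injective.eq_iff]
    simp
  have hout : ∀ i, i ∉ Finset.univ.image g → l i = 0 := fun i hi => by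
    rw [hl]
    exact Finset.sum_eq_zero fun k _ =>
      if_neg fun e : g k = i => hi (e ▸ Finset.mem_image_of_mem g (Finset.mem_univ k))
  have h0 : ∀ i, 0 ≤ l i := fun i => by
    rw [hl]
    exact Finset.sum_nonneg fun k _ => by split_ifs; exacts [(h k).le, le_rfl]
  have hsum : ∑ i, l i • a i = x := by
    conv_rhs => rw [← sum_coord hg x]
    rw [hl]
    simp only [Finset.sum_smul]
    rw [Finset.sum_comm]
    simp [ite_smul]
  refine ⟨l, hsum ▸ (mem_simplices.1 hg).2.isLexMax h0 hout, fun i => ⟨fun hi => ?_, fun hi => ?_⟩⟩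
  · by_contra hi'
    exact hi.ne' (hout i hi')
  · obtain ⟨k, -, rfl⟩ := Finset.mem_image.1 hi
    rw [hin]
    exact h k

theorem simplices_ext {g g' : Fin (n + 1) → Fin m} (hg : g ∈ simplices a) (hg' : g' ∈ simplices a)
    {x : Fin (n + 1) → ℝ} (h : ∀ k, 0 < coord a g x k) (h' : ∀ k, 0 < coord a g' x k) : g = g' := by
  classical
  obtain ⟨l, hl, hli⟩ := isLexMax_coord hg h
  obtain ⟨l', hl', hli'⟩ := isLexMax_coord hg' h'
  have e : Finset.univ.image g = Finset.univ.image g' := by
    ext i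
    rw [← hli i, ← hli' i, hl.unique hl']
  have hcard : (Finset.univ.image g).card = n + 1 := by
    rw [Finset.card_image_of_injective _ (mem_simplices.1 hg).1.injective, Finset.card_univ,
      Fintype.card_fin]
  exact (Finset.orderEmbOfFin_unique hcard
    (fun k => Finset.mem_image_of_mem g (Finset.mem_univ k)) (mem_simplices.1 hg).1).trans
    (Finset.orderEmbOfFin_unique hcard (fun k => e ▸ Finset.mem_image_of_mem g' (Finset.mem_univ k))
      (mem_simplices.1 hg').1).symm

/-- A direction off all the walls. -/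
def IsGeneric (a : Fin m → Fin (n + 1) → ℝ) (q : Fin (n + 1) → ℝ) : Prop :=
  q ∈ interior (cone a) ∧
    (∀ S : Finset (Fin m), S.card ≤ n → q ∉ Submodule.span ℝ (a '' ↑S)) ∧
      ∀ g ∈ simplices a, ∀ k, coord a g q k ≠ 0

theorem exists_generic (hne : (interior (cone a)).Nonempty) : ∃ q, IsGeneric a q := by
  classical
  obtain ⟨bad, hbad⟩ : ∃ bad : Set (Fin (n + 1) → ℝ), bad =
      (⋃ S ∈ (Finset.univ.filter fun S : Finset (Fin m) => S.card ≤ n),
        (Submodule.span ℝ (a '' ↑S) : Set (Fin (n + 1) → ℝ))) ∪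
      ⋃ g ∈ simplices a, ⋃ k, {x | coord a g x k = 0} := ⟨_, rfl⟩
  have hnull : volume bad = 0 := by
    rw [hbad]
    refine measure_union_null ((measure_biUnion_null_iff (Finset.countable_toSet _)).2
      fun S hS => ?_) ((measure_biUnion_null_iff (Finset.countable_toSet _)).2
      fun g hg => measure_iUnion_null fun k => ?_)
    · refine Measure.addHaar_submodule _ _ fun htop => ?_
      have h := finrank_span_finset_le_card (R := ℝ) (S.image a)
      rw [Set.finrank, Finset.coe_image, htop, finrank_top, Module.finrank_fin_fun] at h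
      have h2 : (S.image a).card ≤ n :=
        Finset.card_image_le.trans (Finset.mem_filter.1 hS).2
      omega
    · have e : {x | coord a g x k = 0} =
          (LinearMap.ker ((LinearMap.proj k).comp (Matrix.toLin' (cols a g)⁻¹)) : Set _) := by
        ext x
        simp [coord, LinearMap.mem_ker]
      rw [e]
      refine Measure.addHaar_submodule _ _ fun htop => ?_
      have h : (Pi.single k 1 : Fin (n + 1) → ℝ) k = 0 := by
        have h1 := LinearMap.ker_eq_top.1 htop
        have h2 := LinearMap.congr_fun h1 (∑ j, (Pi.single k 1 : Fin (n + 1) → ℝ) j • a (g j))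
        rw [LinearMap.comp_apply, Matrix.toLin'_apply, LinearMap.zero_apply] at h2
        rw [← congrFun (coord_sum hg (Pi.single k 1)) k]
        exact h2
      rw [Pi.single_eq_same] at h
      exact one_ne_zero h
  have hpos : 0 < volume (interior (cone a)) := isOpen_interior.measure_pos volume hne
  obtain ⟨q, hq, hqb⟩ := nonempty_of_measure_ne_zero (μ := volume)
    (s := interior (cone a) \ bad) (by rw [measure_sdiff_null hnull]; exact hpos.ne')
  rw [hbad] at hqb
  simp only [Set.mem_union, Set.mem_iUnion, Finset.mem_filter, Finset.mem_univ, true_and,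
    SetLike.mem_coe, Set.mem_ofPred_eq, not_or, not_exists] at hqb
  exact ⟨q, hq, fun S hS => hqb.1 S hS, fun g hg k => hqb.2 g hg k⟩

theorem eventually_pos_iff (A B : ℝ) :
    ∀ᶠ ε in 𝓝[>] (0 : ℝ), (0 < A + ε * B ↔ 0 < A ∨ (A = 0 ∧ 0 < B)) := by
  rcases eq_or_ne A 0 with rfl | hA
  · filter_upwards [self_mem_nhdsWithin] with ε hε
    simp only [zero_add, lt_irrefl, false_or, true_and]
    exact mul_pos_iff_of_pos_left hε
  · have h1 : Tendsto (fun ε : ℝ => A + ε * B) (𝓝 0) (𝓝 A) :=
      (by fun_prop : Continuous fun ε : ℝ => A + ε * B).tendsto' 0 A (by simp)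
    rcases lt_or_gt_of_ne hA with h | h
    · filter_upwards [nhdsWithin_le_nhds (h1.eventually (eventually_lt_nhds h))] with ε hε
      simp [hε.not_gt, h.not_gt, hA]
    · filter_upwards [nhdsWithin_le_nhds (h1.eventually (eventually_gt_nhds h))] with ε hε
      simp [hε, h]

theorem eventually_ne (ε₀ : ℝ) : ∀ᶠ ε in 𝓝[>] (0 : ℝ), ε ≠ ε₀ := by
  rcases eq_or_ne ε₀ 0 with rfl | h
  · filter_upwards [self_mem_nhdsWithin] with ε hε
    exact ne_of_gt hε
  · exact nhdsWithin_le_nhds (isOpen_ne.mem_nhds (Ne.symm h))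

/-- Moved slightly along a generic direction, a point is off the lower cones. -/
theorem eventually_notMem_span {q : Fin (n + 1) → ℝ} {S : Finset (Fin m)}
    (hq : q ∉ Submodule.span ℝ (a '' ↑S)) (x : Fin (n + 1) → ℝ) (s : ℝ) (hs : s ≠ 0) :
    ∀ᶠ ε in 𝓝[>] (0 : ℝ), x + (s * ε) • q ∉ Submodule.span ℝ (a '' ↑S) := by
  by_cases h : ∃ ε₀, x + (s * ε₀) • q ∈ Submodule.span ℝ (a '' ↑S)
  · obtain ⟨ε₀, h₀⟩ := h
    filter_upwards [eventually_ne ε₀] with ε hε hmem
    have h1 := Submodule.sub_mem _ hmem h₀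
    rw [add_sub_add_left_eq_sub, ← sub_smul, ← mul_sub] at h1
    refine hq ?_
    have h2 := Submodule.smul_mem _ (s * (ε - ε₀))⁻¹ h1
    rwa [smul_smul, inv_mul_cancel₀ (mul_ne_zero hs (sub_ne_zero.2 hε)), one_smul] at h2
  · push Not at h
    exact Eventually.of_forall h

/-- The open facets towards `s q`. -/
def openFacets (a : Fin m → Fin (n + 1) → ℝ) (q : Fin (n + 1) → ℝ) (s : ℝ)
    (g : Fin (n + 1) → Fin m) : Fin (n + 1) → Bool :=
  fun k => decide (s * coord a g q k < 0)

theorem eventually_inHalf {q : Fin (n + 1) → ℝ} (hq : IsGeneric a q) {s : ℝ} (hs : s ≠ 0)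
    {g : Fin (n + 1) → Fin m} (hg : g ∈ simplices a) (x : Fin (n + 1) → ℝ) :
    ∀ᶠ ε in 𝓝[>] (0 : ℝ),
      ((∀ k, 0 < coord a g (x + (s * ε) • q) k) ↔ InHalf a g (openFacets a q s g) x) := by
  have h : ∀ k, ∀ᶠ ε in 𝓝[>] (0 : ℝ), (0 < coord a g (x + (s * ε) • q) k ↔
      if openFacets a q s g k then 0 < coord a g x k else 0 ≤ coord a g x k) := fun k => by
    have hB : s * coord a g q k ≠ 0 := mul_ne_zero hs (hq.2.2 g hg k)
    filter_upwards [eventually_pos_iff (coord a g x k) (s * coord a g q k)] with ε hε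
    rw [coord_add, show s * ε * coord a g q k = ε * (s * coord a g q k) by ring, hε]
    rcases lt_or_gt_of_ne hB with h | h
    · simp [openFacets, h, h.not_gt]
    · simp [openFacets, h, h.not_gt, le_iff_lt_or_eq, eq_comm]
  filter_upwards [Filter.eventually_all.2 h] with ε hε
  exact forall_congr' hε

/-- If the moved points stay in the cone, exactly one half-open simplex contains the point. -/
theorem existsUnique_inHalf (ha : ∀ i, a i 0 = 1) {q : Fin (n + 1) → ℝ} (hq : IsGeneric a q)
    {s : ℝ} (hs : s ≠ 0) {x : Fin (n + 1) → ℝ}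
    (hx : ∀ᶠ ε in 𝓝[>] (0 : ℝ), x + (s * ε) • q ∈ cone a) :
    ∃! g, g ∈ simplices a ∧ InHalf a g (openFacets a q s g) x := by
  classical
  have hall := (simplices a).eventually_all.2 fun g hg => eventually_inHalf hq hs hg x
  have hspan := (Finset.univ.filter fun S : Finset (Fin m) => S.card ≤ n).eventually_all.2
    fun S hS => eventually_notMem_span (hq.2.1 S (Finset.mem_filter.1 hS).2) x s hs
  obtain ⟨ε, hεg, hεS, hεc⟩ := (hall.and (hspan.and hx)).exists
  obtain ⟨l, hl⟩ := exists_lexMax ha hεc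
  obtain ⟨S, hS⟩ : ∃ S, S = Finset.univ.filter fun i => 0 < l i := ⟨_, rfl⟩
  have hadm : Admissible a S := ⟨_, l, hl, fun i => by simp [hS]⟩
  have hout : ∀ i, i ∉ S → l i = 0 := fun i hi =>
    le_antisymm (not_lt.1 fun h => hi (by simp [hS, h])) (hl.1.1 i)
  have hcard : S.card = n + 1 := by
    refine le_antisymm ?_ (Nat.succ_le_of_lt (not_le.1 fun hle : S.card ≤ n =>
      hεS S (Finset.mem_filter.2 ⟨Finset.mem_univ S, hle⟩) ?_))
    · have h := hadm.linearIndependent.fintype_card_le_finrank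
      rwa [Fintype.card_coe, Module.finrank_fin_fun] at h
    · rw [← hl.1.2]
      refine Submodule.sum_mem _ fun i _ => ?_
      by_cases hi : i ∈ S
      · exact Submodule.smul_mem _ _ (Submodule.subset_span ⟨i, hi, rfl⟩)
      · rw [hout i hi, zero_smul]
        exact Submodule.zero_mem _
  obtain ⟨g, hgdef⟩ : ∃ g, g = S.orderEmbOfFin hcard := ⟨_, rfl⟩
  have himg : Finset.univ.image g = S := by
    rw [hgdef]
    exact Finset.image_orderEmbOfFin_univ S hcard
  have hg : (g : Fin (n + 1) → Fin m) ∈ simplices a :=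
    mem_simplices.2 ⟨g.strictMono, himg.symm ▸ hadm⟩
  have hsum : ∑ k, l (g k) • a (g k) = x + (s * ε) • q := by
    rw [← hl.1.2, ← Finset.sum_subset (Finset.subset_univ S) fun i _ hi => by
      rw [hout i hi, zero_smul], ← himg, Finset.sum_image fun k _ j _ h => g.injective h]
  have hpos : ∀ k, 0 < coord a g (x + (s * ε) • q) k := fun k => by
    rw [← hsum, coord_sum hg]
    have hmem : g k ∈ S := himg ▸ Finset.mem_image_of_mem g (Finset.mem_univ k)
    simpa [hS] using hmem
  refine ⟨g, ⟨hg, (hεg g hg).1 hpos⟩, fun g' ⟨hg', h'⟩ => ?_⟩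
  exact simplices_ext hg' hg ((hεg g' hg').2 h') hpos

/-- Towards an interior direction: the whole cone. -/
theorem existsUnique_plus (ha : ∀ i, a i 0 = 1) {q : Fin (n + 1) → ℝ} (hq : IsGeneric a q)
    {x : Fin (n + 1) → ℝ} :
    (x ∈ cone a → ∃! g, g ∈ simplices a ∧ InHalf a g (openFacets a q 1 g) x) ∧
      ∀ g ∈ simplices a, InHalf a g (openFacets a q 1 g) x → x ∈ cone a := by
  refine ⟨fun hx => existsUnique_inHalf ha hq one_ne_zero ?_, fun g hg h => ?_⟩
  · filter_upwards [self_mem_nhdsWithin] with ε hε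
    rw [one_mul]
    exact add_mem_cone hx (smul_mem_cone (le_of_lt hε) (interior_subset hq.1))
  · refine mem_cone_of_coord hg fun k => ?_
    have := h k
    split_ifs at this
    exacts [this.le, this]

/-- Away from an interior direction: the interior. -/
theorem existsUnique_minus (ha : ∀ i, a i 0 = 1) {q : Fin (n + 1) → ℝ} (hq : IsGeneric a q)
    {x : Fin (n + 1) → ℝ} :
    (x ∈ interior (cone a) → ∃! g, g ∈ simplices a ∧ InHalf a g (openFacets a q (-1) g) x) ∧
      ∀ g ∈ simplices a, InHalf a g (openFacets a q (-1) g) x → x ∈ interior (cone a) := by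
  refine ⟨fun hx => existsUnique_inHalf ha hq (by norm_num) ?_, fun g hg h => ?_⟩
  · have h1 : Tendsto (fun ε : ℝ => x + (-1 * ε) • q) (𝓝 0) (𝓝 x) :=
      (by fun_prop : Continuous fun ε : ℝ => x + (-1 * ε) • q).tendsto' 0 x (by simp)
    exact nhdsWithin_le_nhds
      ((h1.eventually (mem_interior_iff_mem_nhds.1 hx)).mono fun ε h => h)
  · obtain ⟨ε, hε, hε0 : 0 < ε⟩ :=
      ((eventually_inHalf hq (by norm_num : (-1 : ℝ) ≠ 0) hg x).and self_mem_nhdsWithin).exists
    have hy : x + (-1 * ε) • q ∈ cone a := mem_cone_of_coord hg fun k => (hε.2 h k).le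
    refine interior_maximal (t := (fun z => (x + (-1 * ε) • q) + ε • z) '' interior (cone a))
      ?_ ?_ ⟨q, hq.1, by
        show x + (-1 * ε) • q + ε • q = x
        rw [add_assoc, ← add_smul]; simp⟩
    · rintro _ ⟨z, hz, rfl⟩
      exact add_mem_cone hy (smul_mem_cone hε0.le (interior_subset hz))
    · exact (((Homeomorph.smulOfNeZero ε hε0.ne').trans
        (Homeomorph.addLeft (x + (-1 * ε) • q))).isOpenMap) _ isOpen_interior

end FA.Ehrhart

end
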