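import Mathlib.Analysis.Normed.Module.FiniteDimension
import Mathlib.Topology.Order.Compact
import Mathlib.LinearAlgebra.LinearIndependent.Basic

/-!
# A triangulation from lexicographically greatest representations

Write a point of the cone over finitely many vectors of height one with the lexicographically
greatest coefficients: their supports are linearly independent, and every positive combination on
such a support is again the greatest one of its point.
-/

set_option autoImplicit false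

noncomputable section

open Filter Topology

namespace FA.Ehrhart

variable {m n : ℕ} (a : Fin m → Fin (n + 1) → ℝ)

/-- The representations of `x`. -/
def Reps (x : Fin (n + 1) → ℝ) : Set (Fin m → ℝ) := {l | (∀ i, 0 ≤ l i) ∧ ∑ i, l i • a i = x}

/-- The cone. -/
def cone : Set (Fin (n + 1) → ℝ) := {x | (Reps a x).Nonempty}

/-- The lexicographically greatest representation. -/
def IsLexMax (x : Fin (n + 1) → ℝ) (l : Fin m → ℝ) : Prop :=
  l ∈ Reps a x ∧ ∀ l' ∈ Reps a x, l' ≠ l → ∃ i, l' i < l i ∧ ∀ j < i, l' j = l j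

/-- The supports of greatest representations. -/
def Admissible (S : Finset (Fin m)) : Prop := ∃ x l, IsLexMax a x l ∧ ∀ i, i ∈ S ↔ 0 < l i

variable {a}

theorem le_height (ha : ∀ i, a i 0 = 1) {x : Fin (n + 1) → ℝ} {l : Fin m → ℝ} (hl : l ∈ Reps a x)
    (i : Fin m) : l i ≤ x 0 := by
  rw [← hl.2, Finset.sum_apply]
  simp only [Pi.smul_apply, ha, smul_eq_mul, mul_one]
  exact Finset.single_le_sum (fun j _ => hl.1 j) (Finset.mem_univ i)

theorem exists_lexMax (ha : ∀ i, a i 0 = 1) {x : Fin (n + 1) → ℝ} (hx : x ∈ cone a) :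
    ∃ l, IsLexMax a x l := by
  suffices H : ∀ k, k ≤ m → ∃ l ∈ Reps a x, ∀ l' ∈ Reps a x, (∃ j : Fin m, j.1 < k ∧ l' j ≠ l j) →
      ∃ i, l' i < l i ∧ ∀ j < i, l' j = l j by
    obtain ⟨l, hl, h⟩ := H m le_rfl
    refine ⟨l, hl, fun l' hl' hne => h l' hl' ?_⟩
    obtain ⟨j, hj⟩ := Function.ne_iff.1 hne
    exact ⟨j, j.2, hj⟩
  intro k hk
  induction k with
  | zero => exact ⟨hx.some, hx.some_mem, fun l' _ ⟨j, hj, _⟩ => absurd hj (Nat.not_lt_zero _)⟩
  | succ k ih =>
    obtain ⟨l, hl, h⟩ := ih (Nat.le_of_succ_le hk)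
    obtain ⟨K, hK⟩ : ∃ K, K = {l' | l' ∈ Reps a x ∧ ∀ j : Fin m, j.1 < k → l' j = l j} := ⟨_, rfl⟩
    have hKc : IsCompact K := by
      refine (isCompact_univ_pi fun _ : Fin m =>
        isCompact_Icc (a := (0 : ℝ)) (b := x 0)).of_isClosed_subset ?_ fun l' hl' i _ => ?_
      swap
      · rw [hK] at hl'
        exact ⟨hl'.1.1 i, le_height ha hl'.1 i⟩
      have e : K = ({l' | ∀ i, 0 ≤ l' i} ∩ {l' | ∑ i, l' i • a i = x}) ∩
          {l' | ∀ j : Fin m, j.1 < k → l' j = l j} := hK
      rw [e]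
      refine IsClosed.inter (IsClosed.inter ?_ ?_) ?_
      · simp only [Set.ofPred_forall]
        exact isClosed_iInter fun i => isClosed_le continuous_const (continuous_apply i)
      · exact isClosed_eq (by fun_prop) continuous_const
      · simp only [Set.ofPred_forall]
        exact isClosed_iInter fun j => isClosed_iInter fun _ =>
          isClosed_eq (continuous_apply j) continuous_const
    obtain ⟨p, hp, hmax⟩ := hKc.exists_isMaxOn ⟨l, hK ▸ ⟨hl, fun _ _ => rfl⟩⟩
      (continuous_apply (⟨k, hk⟩ : Fin m)).continuousOn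
    rw [hK] at hp
    refine ⟨p, hp.1, fun l' hl' hj => ?_⟩
    by_cases hlow : ∃ j : Fin m, j.1 < k ∧ l' j ≠ l j
    · obtain ⟨i, hi, hi'⟩ := h l' hl' hlow
      obtain ⟨j, hjk, hjne⟩ := hlow
      have hik : i.1 < k := lt_of_le_of_lt (not_lt.1 fun hji => hjne (hi' j hji)) hjk
      exact ⟨i, by rw [hp.2 i hik]; exact hi,
        fun j hji => by rw [hp.2 j (lt_trans (Fin.lt_def.1 hji) hik), hi' j hji]⟩
    · push Not at hlow
      obtain ⟨j, hjk, hjne⟩ := hj
      have hjk' : j = ⟨k, hk⟩ := Fin.ext (le_antisymm (Nat.le_of_lt_succ hjk)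
        (not_lt.1 fun hlt => hjne (by rw [hlow j hlt, hp.2 j hlt])))
      subst hjk'
      refine ⟨_, lt_of_le_of_ne (hmax (hK ▸ ⟨hl', hlow⟩)) hjne, fun i hi => ?_⟩
      rw [hlow i hi, hp.2 i hi]

theorem IsLexMax.unique {x : Fin (n + 1) → ℝ} {l l' : Fin m → ℝ} (h : IsLexMax a x l)
    (h' : IsLexMax a x l') : l = l' := by
  by_contra hne
  obtain ⟨i, hi, hi'⟩ := h.2 l' h'.1 (Ne.symm hne)
  obtain ⟨j, hj, hj'⟩ := h'.2 l h.1 hne
  rcases lt_trichotomy i j with hij | rfl | hij
  · exact absurd (hj' i hij) hi.ne'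
  · exact absurd hj hi.not_gt
  · exact absurd (hi' j hij) hj.ne'

/-- **Positive combinations on an admissible support are greatest.** -/
theorem Admissible.isLexMax {S : Finset (Fin m)} (hS : Admissible a S) {μ : Fin m → ℝ}
    (h0 : ∀ i, 0 ≤ μ i) (hsupp : ∀ i, i ∉ S → μ i = 0) : IsLexMax a (∑ i, μ i • a i) μ := by
  obtain ⟨x, l, hl, hlS⟩ := hS
  refine ⟨⟨h0, rfl⟩, fun ν hν hne => ?_⟩
  classical
  obtain ⟨i, hi, hmin⟩ := (Finset.univ.filter fun i => ν i ≠ μ i).exists_min_image id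
    (by obtain ⟨j, hj⟩ := Function.ne_iff.1 hne; exact ⟨j, by simpa using hj⟩)
  have heq : ∀ j < i, ν j = μ j := fun j hj => by
    by_contra h
    exact (hmin j (by simpa using h)).not_gt hj
  have hine : ν i ≠ μ i := (Finset.mem_filter.1 hi).2
  refine ⟨i, lt_of_le_of_ne (not_lt.1 fun hlt => ?_) hine, heq⟩
  obtain ⟨δ, hδ⟩ : ∃ δ : Fin m → ℝ, δ = fun j => ν j - μ j := ⟨_, rfl⟩
  have hev : ∀ᶠ ε in 𝓝[>] (0 : ℝ), ∀ j, 0 ≤ l j + ε * δ j := by
    refine Filter.eventually_all.2 fun j => ?_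
    by_cases hj : j ∈ S
    · have h1 : Tendsto (fun ε : ℝ => l j + ε * δ j) (𝓝 0) (𝓝 (l j)) :=
        (by fun_prop : Continuous fun ε : ℝ => l j + ε * δ j).tendsto' 0 (l j) (by simp)
      exact nhdsWithin_le_nhds
        ((h1.eventually (eventually_gt_nhds ((hlS j).1 hj))).mono fun ε h => h.le)
    · filter_upwards [self_mem_nhdsWithin] with ε hε
      have h2 : 0 ≤ δ j := by rw [hδ]; show 0 ≤ ν j - μ j; rw [hsupp j hj, sub_zero]; exact hν.1 j
      exact add_nonneg (hl.1.1 j) (mul_nonneg (le_of_lt hε) h2)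
  obtain ⟨ε, hε, hε0 : 0 < ε⟩ := (hev.and self_mem_nhdsWithin).exists
  have hrep : (fun j => l j + ε * δ j) ∈ Reps a x := by
    refine ⟨hε, ?_⟩
    have : ∑ j, δ j • a j = 0 := by
      rw [hδ]
      simp only [sub_smul, Finset.sum_sub_distrib, hν.2, sub_self]
    simp only [add_smul, Finset.sum_add_distrib, hl.1.2, mul_smul, ← Finset.smul_sum, this,
      smul_zero, add_zero]
  have hδi : 0 < δ i := by rw [hδ]; exact sub_pos.2 hlt
  obtain ⟨j, hj, hj'⟩ := hl.2 _ hrep fun h => by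
    have := congrFun h i
    nlinarith
  rcases lt_trichotomy j i with hji | rfl | hji
  · rw [hδ] at hj
    simp only [heq j hji, sub_self, mul_zero, add_zero] at hj
    exact lt_irrefl _ hj
  · nlinarith
  · have := hj' i hji
    nlinarith

theorem Admissible.linearIndependent {S : Finset (Fin m)} (hS : Admissible a S) :
    LinearIndependent ℝ (fun i : S => a i) := by
  classical
  obtain ⟨x, l, hl, hlS⟩ := id hS
  rw [Fintype.linearIndependent_iff]
  intro c hc i
  obtain ⟨d, hd⟩ : ∃ d : Fin m → ℝ, d = fun j => if h : j ∈ S then c ⟨j, h⟩ else 0 := ⟨_, rfl⟩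
  have hd0 : ∑ j, d j • a j = 0 := by
    rw [← Finset.sum_subset (Finset.subset_univ S) (fun j _ hj => by rw [hd]; simp [hj]),
      ← Finset.sum_coe_sort, ← hc]
    exact Finset.sum_congr rfl fun j _ => by rw [hd]; simp
  have hev : ∀ᶠ ε in 𝓝[>] (0 : ℝ), ∀ j, 0 ≤ l j + ε * d j ∧ 0 ≤ l j - ε * d j := by
    refine Filter.eventually_all.2 fun j => ?_
    by_cases hj : j ∈ S
    · have h1 : Tendsto (fun ε : ℝ => l j + ε * d j) (𝓝 0) (𝓝 (l j)) :=
        (by fun_prop : Continuous fun ε : ℝ => l j + ε * d j).tendsto' 0 (l j) (by simp)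
      have h2 : Tendsto (fun ε : ℝ => l j - ε * d j) (𝓝 0) (𝓝 (l j)) :=
        (by fun_prop : Continuous fun ε : ℝ => l j - ε * d j).tendsto' 0 (l j) (by simp)
      exact nhdsWithin_le_nhds
        (((h1.eventually (eventually_gt_nhds ((hlS j).1 hj))).and
          (h2.eventually (eventually_gt_nhds ((hlS j).1 hj)))).mono fun ε h => ⟨h.1.le, h.2.le⟩)
    · have : d j = 0 := by rw [hd]; simp [hj]
      simp [this, hl.1.1 j]
  obtain ⟨ε, hε, hε0 : 0 < ε⟩ := (hev.and self_mem_nhdsWithin).exists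
  have hout : ∀ j, j ∉ S → l j = 0 ∧ d j = 0 := fun j hj =>
    ⟨le_antisymm (not_lt.1 fun h => hj ((hlS j).2 h)) (hl.1.1 j), by rw [hd]; simp [hj]⟩
  have h1 := hS.isLexMax (μ := fun j => l j + ε * d j) (fun j => (hε j).1)
    fun j hj => by simp [hout j hj]
  have h2 := hS.isLexMax (μ := fun j => l j - ε * d j) (fun j => (hε j).2)
    fun j hj => by simp [hout j hj]
  have hsum : ∀ r : ℝ, ∑ j, (l j + r * d j) • a j = x := fun r => by
    simp only [add_smul, Finset.sum_add_distrib, mul_smul, ← Finset.smul_sum, hd0, smul_zero,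
      add_zero, hl.1.2]
  simp only [show ∀ j, l j - ε * d j = l j + -ε * d j from fun j => by ring, hsum] at h2
  rw [hsum] at h1
  have := congrFun (h1.unique h2) i
  have h3 : d i = 0 := by
    have h4 : ε * d i = 0 := by linarith
    exact (mul_eq_zero.1 h4).resolve_left hε0.ne'
  simpa [hd] using h3

end FA.Ehrhart

end
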